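/-
S44, block X, NodeSlope, assembly of the route COVER (helper51): abstract approximation lemma.

`F₀ ⊆ F` fields, `G` a valuation ring of `F₀`, `Wb` a valuation ring of `F` above `G`, such that `F₀ˣ` is
multiplicatively dense in `Fˣ`.  A congruence `U₁ b ^ p / (c g ^ p) ≡ r` with `b, g ∈ F` can be
replaced by a congruence with `b₀, g₀ ∈ F₀`.   Mathlib only.
-/
import Mathlib

set_option autoImplicit false

namespace Fermat.Agent.S44.X.Slope

section One

variable {F : Type*} [Field F] (V : ValuationSubring F)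

theorem val_lt_one_iff_inv_notMem {x : F} (h0 : x ≠ 0) : V.valuation x < 1 ↔ x⁻¹ ∉ V := by
  have h3 : V.valuation x ≠ 0 := (V.valuation.ne_zero_iff).mpr h0
  rw [← V.valuation_le_one_iff, map_inv₀, inv_le_one₀ (zero_lt_iff.mpr h3), not_le]

theorem val_eq_one_iff_mem {x : F} (h0 : x ≠ 0) : V.valuation x = 1 ↔ x ∈ V ∧ x⁻¹ ∈ V := by
  have h3 : V.valuation x ≠ 0 := (V.valuation.ne_zero_iff).mpr h0
  rw [← V.valuation_le_one_iff, ← V.valuation_le_one_iff, map_inv₀,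
    inv_le_one₀ (zero_lt_iff.mpr h3)]
  exact ⟨fun h => ⟨h.le, h.ge⟩, fun h => le_antisymm h.1 h.2⟩

variable {V}

theorem val_eq_one_of_sub_lt {x y : F} (hy : V.valuation y = 1) (h : V.valuation (x - y) < 1) :
    V.valuation x = 1 := by
  have e : x = y + (x - y) := by ring
  rw [e, Valuation.map_add_eq_of_lt_left _ (by rw [hy]; exact h), hy]

theorem val_pow_sub_one_lt {x : F} (h : V.valuation (x - 1) < 1) (n : ℕ) :
    V.valuation (x ^ n - 1) < 1 := by
  have hx : V.valuation x = 1 := val_eq_one_of_sub_lt (map_one _) h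
  induction n with
  | zero => simp
  | succ n ih =>
    have e : x ^ (n + 1) - 1 = x ^ n * (x - 1) + (x ^ n - 1) := by ring
    rw [e]
    refine Valuation.map_add_lt _ ?_ ih
    rw [map_mul, map_pow, hx, one_pow, one_mul]
    exact h

theorem val_div_sub_one_lt {x y : F} (hx : V.valuation (x - 1) < 1) (hy : V.valuation (y - 1) < 1) :
    V.valuation (x / y - 1) < 1 := by
  have hy1 : V.valuation y = 1 := val_eq_one_of_sub_lt (map_one _) hy
  have hy0 : y ≠ 0 := by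
    rintro rfl
    rw [map_zero] at hy1
    exact zero_ne_one hy1
  have e : x / y - 1 = ((x - 1) - (y - 1)) / y := by
    field_simp
    ring
  rw [e, map_div₀, hy1, div_one]
  exact Valuation.map_sub_lt _ hx hy

end One

section Two

variable {F₀ F : Type*} [Field F₀] [Field F] [Algebra F₀ F] {G : ValuationSubring F₀}
  {Wb : ValuationSubring F}

theorem val_lt_one_iff_of_lies (hWG : ∀ z : F₀, algebraMap F₀ F z ∈ Wb ↔ z ∈ G) (z : F₀) :
    Wb.valuation (algebraMap F₀ F z) < 1 ↔ G.valuation z < 1 := by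
  rcases eq_or_ne z 0 with rfl | h0
  · simp
  · rw [val_lt_one_iff_inv_notMem Wb ((map_ne_zero _).2 h0), val_lt_one_iff_inv_notMem G h0,
      ← map_inv₀, hWG]

theorem val_eq_one_iff_of_lies (hWG : ∀ z : F₀, algebraMap F₀ F z ∈ Wb ↔ z ∈ G) (z : F₀) :
    Wb.valuation (algebraMap F₀ F z) = 1 ↔ G.valuation z = 1 := by
  rcases eq_or_ne z 0 with rfl | h0
  · simp
  · rw [val_eq_one_iff_mem Wb ((map_ne_zero _).2 h0), val_eq_one_iff_mem G h0, ← map_inv₀, hWG,
      hWG]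

theorem val_lt_one_iff_of_hom {F₁ : Type*} [Field F₁] {V₁ : ValuationSubring F₁} (φ : F₁ →+* F)
    (h : ∀ z : F₁, z ∈ V₁ ↔ φ z ∈ Wb) (z : F₁) : V₁.valuation z < 1 ↔ Wb.valuation (φ z) < 1 := by
  rcases eq_or_ne z 0 with rfl | h0
  · simp
  · rw [val_lt_one_iff_inv_notMem Wb ((map_ne_zero φ).2 h0), val_lt_one_iff_inv_notMem V₁ h0,
      ← map_inv₀, h]

/-- **The approximation lemma.** -/
theorem approx_abs (hWG : ∀ z : F₀, algebraMap F₀ F z ∈ Wb ↔ z ∈ G)
    (hdense : ∀ b : F, b ≠ 0 → ∃ b₀ : F₀, b₀ ≠ 0 ∧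
      Wb.valuation (b / algebraMap F₀ F b₀ - 1) < 1)
    {U₁ c r : F₀} {b g : F} (p : ℕ) (hb : b ≠ 0) (hg : g ≠ 0) (hr : G.valuation r = 1)
    (h : Wb.valuation (algebraMap F₀ F U₁ * b ^ p / (algebraMap F₀ F c * g ^ p) -
      algebraMap F₀ F r) < 1) :
    ∃ b₀ g₀ : F₀, b₀ ≠ 0 ∧ g₀ ≠ 0 ∧ G.valuation (U₁ * b₀ ^ p / (c * g₀ ^ p) - r) < 1 := by
  obtain ⟨b₀, hb₀, hb1⟩ := hdense b hb
  obtain ⟨g₀, hg₀, hg1⟩ := hdense g hg
  refine ⟨b₀, g₀, hb₀, hg₀, ?_⟩
  have hb₀' : algebraMap F₀ F b₀ ≠ 0 := (map_ne_zero _).2 hb₀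
  have hg₀' : algebraMap F₀ F g₀ ≠ 0 := (map_ne_zero _).2 hg₀
  set t : F := (b / algebraMap F₀ F b₀) ^ p / (g / algebraMap F₀ F g₀) ^ p with ht
  have ht1 : Wb.valuation (t - 1) < 1 :=
    val_div_sub_one_lt (val_pow_sub_one_lt hb1 p) (val_pow_sub_one_lt hg1 p)
  have htv : Wb.valuation t = 1 := val_eq_one_of_sub_lt (map_one _) ht1
  set y₀ : F₀ := U₁ * b₀ ^ p / (c * g₀ ^ p) with hy₀
  have hY : algebraMap F₀ F U₁ * b ^ p / (algebraMap F₀ F c * g ^ p) = algebraMap F₀ F y₀ * t := by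
    rw [hy₀, ht, map_div₀, map_mul, map_mul, map_pow, map_pow, div_pow, div_pow]
    rcases eq_or_ne c 0 with rfl | hc
    · simp
    · have hc' : algebraMap F₀ F c ≠ 0 := (map_ne_zero _).2 hc
      field_simp
  rw [hY] at h
  have hr' : Wb.valuation (algebraMap F₀ F r) = 1 := (val_eq_one_iff_of_lies hWG r).2 hr
  have hv : Wb.valuation (algebraMap F₀ F y₀ * t) = 1 := val_eq_one_of_sub_lt hr' h
  rw [map_mul, htv, mul_one] at hv
  rw [← val_lt_one_iff_of_lies hWG, map_sub]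
  have e : algebraMap F₀ F y₀ - algebraMap F₀ F r =
      (algebraMap F₀ F y₀ * t - algebraMap F₀ F r) - algebraMap F₀ F y₀ * (t - 1) := by ring
  rw [e]
  refine Valuation.map_sub_lt _ h ?_
  rw [map_mul, hv, one_mul]
  exact ht1

end Two

end Fermat.Agent.S44.X.Slope
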