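/-
S44, block X, NodeSlope, assembly of the route COVER: THE BRIDGE (helper51).

From a congruence `U₁ b₀ ^ p / (p ^ n x ^ k g₀ ^ p) ≡ r` for the Gauss valuation ring `G` of
`FN (M p)` to the divisibility `p ∣ ord_w ū₁ - k ord_w x̄` at a place `w` of `k(X₀(M))` at which the
reduction of `r` is a unit.  Everything happens inside `FN (M p)`.
-/
import Fermat.Agent.S44.X.Cover.Inst
import Fermat.Agent.S44.X.Red.API
import Fermat.Agent.S44.X.Top
import Fermat.Agent.S24.FFBasic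

set_option autoImplicit false

noncomputable section

namespace Fermat.Agent.S44.X.Slope

open ModularCurve AlgebraicCurve Fermat.Agent.S24 Fermat.Agent.GAL Fermat.Agent.S28.Export
  Fermat.Agent.S44.X.Cover

variable {A : ValuationSubring Qb} {L : ℕ} {G : ValuationSubring (FN L)}

theorem mem_iff_red (hG : IsGaussFN A L G) (f : FN L) :
    f ∈ G ↔ ∃ g, Red A (f : LaurentSeries Qb) g := by
  rw [hG]
  constructor
  · rintro ⟨P, Q, hQ, h⟩
    exact ⟨E.red A P / E.red A Q, P, Q, hQ, h, div_mul_cancel₀ _ hQ⟩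
  · rintro ⟨g, P, Q, hQ, h, -⟩
    exact ⟨P, Q, hQ, h⟩

/-- an element of the maximal ideal of `G` reduces to zero -/
theorem red_zero_of_val_lt (hG : IsGaussFN A L G) {ε : FN L} (h : G.valuation ε < 1) :
    Red A (ε : LaurentSeries Qb) 0 := by
  obtain ⟨g, hg⟩ := (mem_iff_red hG ε).1 ((G.valuation_le_one_iff ε).1 h.le)
  by_cases hg0 : g = 0
  · rwa [hg0] at hg
  · exfalso
    have h1 : ε⁻¹ ∈ G := (mem_iff_red hG ε⁻¹).2 ⟨g⁻¹, hg.inv hg0⟩
    have h2 := (G.valuation_le_one_iff _).2 h1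
    have hε : ε ≠ 0 := by
      rintro rfl
      exact hg0 (hg.unique red_zero)
    have hv : G.valuation ε ≠ 0 := (map_ne_zero _).2 hε
    rw [map_inv₀, inv_le_one₀ (zero_lt_iff.2 hv)] at h2
    exact absurd h (not_lt.2 h2)

/-- a unit of `G` has a nonzero reduction -/
theorem exists_red_of_val_eq_one (hG : IsGaussFN A L G) {r : FN L} (h : G.valuation r = 1) :
    ∃ g, g ≠ 0 ∧ Red A (r : LaurentSeries Qb) g := by
  obtain ⟨g, hg⟩ := (mem_iff_red hG r).1 ((G.valuation_le_one_iff r).1 h.le)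
  have h' : G.valuation r⁻¹ = 1 := by rw [map_inv₀, h, inv_one]
  obtain ⟨g', hg'⟩ := (mem_iff_red hG r⁻¹).1 ((G.valuation_le_one_iff _).1 h'.le)
  have hr : r ≠ 0 := by
    rintro rfl
    rw [map_zero] at h
    exact zero_ne_one h
  have hr' : (r : LaurentSeries Qb) ≠ 0 := fun h0 => hr (Subtype.ext h0)
  have h1 := hg.mul hg'
  have e : (r : LaurentSeries Qb) * ((r⁻¹ : FN L) : LaurentSeries Qb) = 1 :=
    mul_inv_cancel₀ hr'
  rw [e] at h1
  have h2 := h1.unique red_one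
  refine ⟨g, ?_, hg⟩
  rintro rfl
  rw [zero_mul] at h2
  exact zero_ne_one h2

/-- **Congruent elements have the same reduction.** -/
theorem isRed_of_val_sub_lt {p : ℕ} (hp : p.Prime) (hA : A.LiesOverPrime p)
    (hG : IsGaussFN A L G) {y r : FN L} {rbar : LaurentSeries (kA A)} (hr : IsRed A r rbar)
    (hrG : G.valuation r = 1) (h : G.valuation (y - r) < 1) : IsRed A y rbar := by
  obtain ⟨g, hg0, hg⟩ := exists_red_of_val_eq_one hG hrG
  have h1 : IsRed A r g := isRed_of_red hp hA hg0 one_ne_zero (by rwa [one_smul])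
  obtain ⟨a, ha, rfl⟩ := h1.unique hr
  have h2 := hg.add (red_zero_of_val_lt hG h)
  have e : (r : LaurentSeries Qb) + ((y - r : FN L) : LaurentSeries Qb) = y :=
    add_sub_cancel (r : LaurentSeries Qb) (y : LaurentSeries Qb)
  rw [e, add_zero] at h2
  exact (isRed_of_red hp hA hg0 one_ne_zero (by rwa [one_smul])).C_mul ha

theorem isRed_zpow {u : FN L} {ubar : LaurentSeries (kA A)} (hu : IsRed A u ubar) (k : ℤ) :
    IsRed A (u ^ k) (ubar ^ k) := by
  cases k with
  | ofNat m =>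
    rw [Int.ofNat_eq_natCast, zpow_natCast, zpow_natCast]
    exact hu.pow m
  | negSucc m =>
    rw [zpow_negSucc, zpow_negSucc]
    exact (hu.pow (m + 1)).inv

theorem isRed_natCast_zpow {p : ℕ} (hp : p ≠ 0) (n : ℤ) : IsRed A ((p : FN L) ^ n) 1 := by
  have h : IsRed A (p : FN L) 1 := by
    have := isRed_algebraMap (A := A) (N := L) (c := (p : Qb)) (Nat.cast_ne_zero.2 hp)
    rwa [map_natCast] at this
  have := isRed_zpow h n
  rwa [one_zpow] at this

section Main

variable {p : ℕ} [NeZero p] {M : ℕ} [NeZero M] {G : ValuationSubring (FN (M * p))}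

/-- the inclusion of `k(X₀(M))` in `k((q))` -/
def phi (A : ValuationSubring Qb) (M : ℕ) : Fk A M →+* LaurentSeries (kA A) :=
  (modularFunctionFieldFullC (kA A) M).val.toRingHom

omit [NeZero M] in
theorem phi_apply (z : Fk A M) : phi A M z = (z : LaurentSeries (kA A)) := rfl

omit [NeZero M] in
theorem phi_algebraMap (a : kA A) :
    phi A M (algebraMap (kA A) (Fk A M) a) = HahnSeries.C a := by
  have h : phi A M (algebraMap (kA A) (Fk A M) a) =
      algebraMap (kA A) (LaurentSeries (kA A)) a :=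
    (modularFunctionFieldFullC (kA A) M).val.commutes a
  rw [h, algebraMap_laurentSeries_eq_single, HahnSeries.C_apply]

/-- **The bridge at a node.** -/
theorem bridge_ord (hR : NodeRed) (hp : p.Prime) (hpM : ¬ p ∣ M) (hA : A.LiesOverPrime p)
    (hG : IsGaussFN A (M * p) G) {U₁ x r b₀ g₀ : FN (M * p)} {n k : ℤ} {ubar xbar rbar : Fk A M}
    (hU : IsRed A U₁ (ubar : LaurentSeries (kA A))) (hx : IsRed A x (xbar : LaurentSeries (kA A)))
    (hr : IsRed A r (rbar : LaurentSeries (kA A))) (hb : b₀ ≠ 0) (hg : g₀ ≠ 0)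
    (hrG : G.valuation r = 1)
    (h : G.valuation (U₁ * b₀ ^ p / ((p : FN (M * p)) ^ n * x ^ k * g₀ ^ p) - r) < 1)
    (w : Place (kA A) (Fk A M)) (hw : w.ord rbar = 0) :
    (p : ℤ) ∣ w.ord ubar - k * w.ord xbar := by
  obtain ⟨bbar, hbb⟩ := hR p M hp hpM A hA b₀ hb
  obtain ⟨gbar, hgb⟩ := hR p M hp hpM A hA g₀ hg
  have h1 := isRed_of_val_sub_lt hp hA hG hr hrG h
  have h2 := (hU.mul (hbb.pow p)).div
    (((isRed_natCast_zpow (A := A) (L := M * p) hp.ne_zero n).mul (isRed_zpow hx k)).mul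
      (hgb.pow p))
  obtain ⟨a, ha, e⟩ := h2.unique h1
  have hu0 : ubar ≠ 0 := fun h0 => hU.ne_zero (by rw [h0]; rfl)
  have hx0 : xbar ≠ 0 := fun h0 => hx.ne_zero (by rw [h0]; rfl)
  have hb0 : bbar ≠ 0 := fun h0 => hbb.ne_zero (by rw [h0]; rfl)
  have hg0 : gbar ≠ 0 := fun h0 => hgb.ne_zero (by rw [h0]; rfl)
  have key : rbar = algebraMap (kA A) (Fk A M) a * (ubar * bbar ^ p / (xbar ^ k * gbar ^ p)) := by
    apply (phi A M).injective
    rw [map_mul, map_div₀, map_mul, map_mul, map_pow, map_pow, map_zpow₀, phi_algebraMap,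
      phi_apply, phi_apply, phi_apply, phi_apply, phi_apply, e, one_mul]
  have hord := congrArg w.ord key
  have hxk : xbar ^ k ≠ 0 := zpow_ne_zero k hx0
  have hbp : bbar ^ p ≠ 0 := pow_ne_zero p hb0
  have hgp : gbar ^ p ≠ 0 := pow_ne_zero p hg0
  rw [hw, div_eq_mul_inv, w.ord_mul ((map_ne_zero _).2 ha)
    (mul_ne_zero (mul_ne_zero hu0 hbp) (inv_ne_zero (mul_ne_zero hxk hgp))),
    FF.ord_algebraMap, w.ord_mul (mul_ne_zero hu0 hbp) (inv_ne_zero (mul_ne_zero hxk hgp)),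
    w.ord_mul hu0 hbp, w.ord_inv, w.ord_mul hxk hgp, w.ord_zpow, FF.ord_pow, FF.ord_pow] at hord
  exact ⟨w.ord gbar - w.ord bbar, by linarith⟩

/-- **The bridge at a smooth point.** -/
theorem bridge_ord_smooth (hR : NodeRed) (hp : p.Prime) (hpM : ¬ p ∣ M) (hA : A.LiesOverPrime p)
    (hG : IsGaussFN A (M * p) G) {U₁ r b₀ g₀ : FN (M * p)} {n : ℤ} {ubar rbar : Fk A M}
    (hU : IsRed A U₁ (ubar : LaurentSeries (kA A)))
    (hr : IsRed A r (rbar : LaurentSeries (kA A))) (hb : b₀ ≠ 0) (hg : g₀ ≠ 0)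
    (hrG : G.valuation r = 1)
    (h : G.valuation (U₁ * b₀ ^ p / ((p : FN (M * p)) ^ n * g₀ ^ p) - r) < 1)
    (w : Place (kA A) (Fk A M)) (hw : w.ord rbar = 0) : (p : ℤ) ∣ w.ord ubar := by
  have h1 : IsRed A (1 : FN (M * p)) ((1 : Fk A M) : LaurentSeries (kA A)) := isRed_one
  have h2 := bridge_ord hR hp hpM hA hG (x := 1) (n := n) (k := 0) hU h1 hr hb hg hrG
    (by rwa [zpow_zero, mul_one]) w hw
  rwa [zero_mul, sub_zero] at h2

end Main

end Fermat.Agent.S44.X.Slope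

end
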