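/-
S44, block X, NodeSlope, assembly of the route COVER (helper51): the bridge, in the vocabulary of
`Cover/Defs.lean` + `Cover/Nodes.lean` (outputs of `NodeSheet`, `NodeDescU`), `PL.pl_main'` (its
conclusions at a node / at a smooth point) and `Model.Centred`.
-/
import Fermat.Agent.S44.X.Slope.Bridge
import Fermat.Agent.S44.X.Slope.Approx
import Fermat.Agent.S44.X.Model.Centre

set_option autoImplicit false
set_option linter.unusedSectionVars false

noncomputable section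

namespace Fermat.Agent.S44.X.Slope

open ModularCurve AlgebraicCurve Fermat.Agent.S24 Fermat.Agent.GAL Fermat.Agent.S28.Export
  Fermat.Agent.S44.X.Cover Fermat.Agent.BAD.Bridge Fermat.Agent.S36.BP

variable {K : Type} [Field K] [Algebra ℚ K] [Algebra K Kbar] {L : ℕ} {W : LaurentSeries Kbar}
  {G : ValuationSubring (FN L)} {Wa : ValuationSubring (FY K L W)}
  {Wb : ValuationSubring (FYb L W)}

/-- From the cover to `FN L`: the congruence of `pl_main'` (with `c = p ^ n x ^ k`), read in `FN L`. -/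
theorem descend_cong (hWa : ∀ z : FY K L W, z ∈ Wa ↔ bcY K L W z ∈ Wb)
    (hWG : ∀ z : FN L, algebraMap (FN L) (FYb L W) z ∈ Wb ↔ z ∈ G)
    (hdense : ∀ b : FYb L W, b ≠ 0 → ∃ b₀ : FN L, b₀ ≠ 0 ∧
      Wb.valuation (b / algebraMap (FN L) (FYb L W) b₀ - 1) < 1)
    {u g : FY K L W} {b : FYb L W} {U₁ : FN L} {p : ℕ}
    (hub : bcY K L W u = algebraMap (FN L) (FYb L W) U₁ * b ^ p) (hb : b ≠ 0) (hg : g ≠ 0)
    {c r : FK K L} (hr : G.valuation (bcX K L r) = 1)
    (h : Wa.valuation (u / (algebraMap (FK K L) (FY K L W) c * g ^ p) -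
      algebraMap (FK K L) (FY K L W) r) < 1) :
    ∃ b₀ g₀ : FN L, b₀ ≠ 0 ∧ g₀ ≠ 0 ∧
      G.valuation (U₁ * b₀ ^ p / (bcX K L c * g₀ ^ p) - bcX K L r) < 1 := by
  rw [val_lt_one_iff_of_hom (bcY K L W) hWa, map_sub, map_div₀, map_mul, map_pow, bcY_algebraMap,
    bcY_algebraMap, hub] at h
  exact approx_abs hWG hdense p hb ((map_ne_zero _).2 hg) hr h

section Main

variable {A : ValuationSubring Qb} {p : ℕ} [NeZero p] {M : ℕ} [NeZero M]
  {G : ValuationSubring (FN (M * p))} {Wa : ValuationSubring (FY K (M * p) W)}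
  {Wb : ValuationSubring (FYb (M * p) W)}

theorem val_bcX_eq_one {R : Subring (FK K (M * p))} (hRG : ∀ r ∈ R, bcX K (M * p) r ∈ G)
    {r : FK K (M * p)} (hr : RUnit R r) : G.valuation (bcX K (M * p) r) = 1 := by
  rw [val_eq_one_iff_mem G ((map_ne_zero _).2 hr.1), ← map_inv₀]
  exact ⟨hRG _ hr.2.1, hRG _ hr.2.2⟩

/-- **The bridge at a node**: from the conclusion of `pl_main'` to orders at `w`. -/
theorem bridge_node (hR : NodeRed) (hp : p.Prime) (hpM : ¬ p ∣ M) (hA : A.LiesOverPrime p)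
    (hG : IsGaussFN A (M * p) G)
    (hWa : ∀ z : FY K (M * p) W, z ∈ Wa ↔ bcY K (M * p) W z ∈ Wb)
    (hWG : ∀ z : FN (M * p), algebraMap (FN (M * p)) (FYb (M * p) W) z ∈ Wb ↔ z ∈ G)
    (hdense : ∀ b : FYb (M * p) W, b ≠ 0 → ∃ b₀ : FN (M * p), b₀ ≠ 0 ∧
      Wb.valuation (b / algebraMap (FN (M * p)) (FYb (M * p) W) b₀ - 1) < 1)
    {u g : FY K (M * p) W} {b : FYb (M * p) W} {U₁ : FN (M * p)}
    (hub : bcY K (M * p) W u = algebraMap (FN (M * p)) (FYb (M * p) W) U₁ * b ^ p) (hb : b ≠ 0)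
    (hg : g ≠ 0) {R : Subring (FK K (M * p))} (hRG : ∀ r ∈ R, bcX K (M * p) r ∈ G)
    {w : Place (kA A) (Fk A M)} (hC : Model.Centred (algebraMap K Qb) R w)
    {x r : FK K (M * p)} (hr : RUnit R r) {n k : ℤ} {ubar xbar : Fk A M}
    (hU : IsRed A U₁ (ubar : LaurentSeries (kA A)))
    (hx : IsRed A (bcX K (M * p) x) (xbar : LaurentSeries (kA A)))
    (h : Wa.valuation (u / ((p : FY K (M * p) W) ^ n *
      algebraMap (FK K (M * p)) (FY K (M * p) W) x ^ k * g ^ p) -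
      algebraMap (FK K (M * p)) (FY K (M * p) W) r) < 1) :
    (p : ℤ) ∣ w.ord ubar - k * w.ord xbar := by
  have hrG := val_bcX_eq_one hRG hr
  have e : (p : FY K (M * p) W) ^ n * algebraMap (FK K (M * p)) (FY K (M * p) W) x ^ k =
      algebraMap (FK K (M * p)) (FY K (M * p) W) ((p : FK K (M * p)) ^ n * x ^ k) := by
    rw [map_mul, map_zpow₀, map_zpow₀, map_natCast]
  rw [e] at h
  obtain ⟨b₀, g₀, hb₀, hg₀, h1⟩ := descend_cong hWa hWG hdense hub hb hg hrG h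
  rw [map_mul, map_zpow₀, map_zpow₀, map_natCast] at h1
  obtain ⟨rbar, hrb⟩ := hR p M hp hpM A hA (bcX K (M * p) r) ((map_ne_zero _).2 hr.1)
  exact bridge_ord hR hp hpM hA hG hU hx hrb hb₀ hg₀ hrG h1 w (hC r hr rbar hrb)

/-- **The bridge at a smooth point.** -/
theorem bridge_smooth (hR : NodeRed) (hp : p.Prime) (hpM : ¬ p ∣ M) (hA : A.LiesOverPrime p)
    (hG : IsGaussFN A (M * p) G)
    (hWa : ∀ z : FY K (M * p) W, z ∈ Wa ↔ bcY K (M * p) W z ∈ Wb)
    (hWG : ∀ z : FN (M * p), algebraMap (FN (M * p)) (FYb (M * p) W) z ∈ Wb ↔ z ∈ G)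
    (hdense : ∀ b : FYb (M * p) W, b ≠ 0 → ∃ b₀ : FN (M * p), b₀ ≠ 0 ∧
      Wb.valuation (b / algebraMap (FN (M * p)) (FYb (M * p) W) b₀ - 1) < 1)
    {u g : FY K (M * p) W} {b : FYb (M * p) W} {U₁ : FN (M * p)}
    (hub : bcY K (M * p) W u = algebraMap (FN (M * p)) (FYb (M * p) W) U₁ * b ^ p) (hb : b ≠ 0)
    (hg : g ≠ 0) {R : Subring (FK K (M * p))} (hRG : ∀ r ∈ R, bcX K (M * p) r ∈ G)
    {w : Place (kA A) (Fk A M)} (hC : Model.Centred (algebraMap K Qb) R w)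
    {r : FK K (M * p)} (hr : RUnit R r) {n : ℤ} {ubar : Fk A M}
    (hU : IsRed A U₁ (ubar : LaurentSeries (kA A)))
    (h : Wa.valuation (u / ((p : FY K (M * p) W) ^ n * g ^ p) -
      algebraMap (FK K (M * p)) (FY K (M * p) W) r) < 1) :
    (p : ℤ) ∣ w.ord ubar := by
  have hrG := val_bcX_eq_one hRG hr
  have e : (p : FY K (M * p) W) ^ n =
      algebraMap (FK K (M * p)) (FY K (M * p) W) ((p : FK K (M * p)) ^ n) := by
    rw [map_zpow₀, map_natCast]
  rw [e] at h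
  obtain ⟨b₀, g₀, hb₀, hg₀, h1⟩ := descend_cong hWa hWG hdense hub hb hg hrG h
  rw [map_zpow₀, map_natCast] at h1
  obtain ⟨rbar, hrb⟩ := hR p M hp hpM A hA (bcX K (M * p) r) ((map_ne_zero _).2 hr.1)
  exact bridge_ord_smooth hR hp hpM hA hG hU hrb hb₀ hg₀ hrG h1 w (hC r hr rbar hrb)

/-- the reduction of `x` is a unit at `w` if `x` is a unit of `R` -/
theorem ord_xbar_eq_zero {R : Subring (FK K (M * p))} {w : Place (kA A) (Fk A M)}
    (hC : Model.Centred (algebraMap K Qb) R w) {x : FK K (M * p)} (hx : RUnit R x)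
    {xbar : Fk A M} (hxb : IsRed A (bcX K (M * p) x) (xbar : LaurentSeries (kA A))) :
    w.ord xbar = 0 := hC x hx xbar hxb

end Main

end Fermat.Agent.S44.X.Slope

end
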