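/-
S44, block X, assembly of NodeSlope (helper103): compatibility of the model over `K` with the
valuation rings of `FN L` used by the cover.

* `gauss_compat` : the Gauss valuation ring of `FK K L` is the trace of the Gauss ring of `FN L`;
* `bcX_ww`       : the Atkin-Lehner involution of `FK K (M q)` is the restriction of `D.w`.
-/
import Fermat.Agent.S44.X.Cover.Hecke.Gauss
import Fermat.Agent.BAD.LevelQ.Mod.Complete.Std
import Fermat.Agent.BAD.LevelQ.Mod.Defs

set_option autoImplicit false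
set_option linter.unusedSectionVars false

noncomputable section

namespace Fermat.Agent.S44.X.Slope

open ModularCurve AlgebraicCurve Fermat.Agent.S24 Fermat.Agent.GAL Fermat.Agent.S18
open Fermat.Agent.S44.X.Cover Fermat.Agent.S36.Mod Fermat.Agent.BAD.LevelQ

section Gauss

variable {K : Type} [Field K] [Algebra ℚ K] [Algebra K Kbar] {A : ValuationSubring Kbar}
  {A₀ : ValuationSubring K}

/-- the inclusion `A₀ → A` -/
def jA (hA₀ : A.comap (algebraMap K Kbar) = A₀) : A₀ →+* A :=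
  (algebraMap K Kbar).restrict A₀ A (fun x hx => by rw [← hA₀] at hx; exact hx)

theorem coe_jA (hA₀ : A.comap (algebraMap K Kbar) = A₀) (a : A₀) :
    ((jA hA₀ a : A) : Kbar) = algebraMap K Kbar (a : K) := rfl

theorem incl_coeffMap_jA (hA₀ : A.comap (algebraMap K Kbar) = A₀) (P : LaurentSeries A₀) :
    E.incl A (coeffMap (jA hA₀) P) = cK K (Vert.inc A₀ P) := by
  ext n
  rfl

theorem red_coeffMap_jA_ne_zero (hA₀ : A.comap (algebraMap K Kbar) = A₀) {Q : LaurentSeries A₀}
    (hQ : Vert.red A₀ Q ≠ 0) : E.red A (coeffMap (jA hA₀) Q) ≠ 0 := by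
  obtain ⟨n, hn⟩ : ∃ n : ℤ, (Vert.red A₀ Q).coeff n ≠ 0 := by
    by_contra hcon
    exact hQ (HahnSeries.ext (funext fun n => by
      by_contra h0
      exact hcon ⟨n, h0⟩))
  have hn' : IsLocalRing.residue A₀ (Q.coeff n) ≠ 0 := hn
  have hu : IsUnit (Q.coeff n) := by
    by_contra hnu
    exact hn' ((IsLocalRing.residue_eq_zero_iff _).2 ((IsLocalRing.mem_maximalIdeal _).2 hnu))
  have hu' : IsUnit (jA hA₀ (Q.coeff n)) := hu.map (jA hA₀)
  intro h0
  have h1 : IsLocalRing.residue A (jA hA₀ (Q.coeff n)) = 0 :=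
    congrArg (fun s : LaurentSeries (IsLocalRing.ResidueField A) => s.coeff n) h0
  exact ((IsLocalRing.mem_maximalIdeal _).1 ((IsLocalRing.residue_eq_zero_iff _).1 h1)) hu'

variable [IsDiscreteValuationRing A₀]

/-- **(C1)** -/
theorem gauss_compat (hA₀ : A.comap (algebraMap K Kbar) = A₀) {ϖ₀ : K} (h₀ : IsUnif A₀ ϖ₀) {L : ℕ}
    {Va : ValuationSubring (FK K L)} (hV : IsGauss A₀ ϖ₀ (FK K L) Va)
    {G : ValuationSubring (FN L)} (hG : IsGaussFN A L G) (z : FK K L) :
    z ∈ Va ↔ bcX K L z ∈ G := by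
  have hfw : ∀ z : FK K L, z ∈ Va → bcX K L z ∈ G := by
    intro z hz
    rw [BAD.LevelQ.IsGauss.eq_stdEmb h₀ hV, IntEmb.mem_val_iff] at hz
    obtain ⟨P, Q, hQ, h⟩ := hz
    rw [hG]
    refine ⟨coeffMap (jA hA₀) P, coeffMap (jA hA₀) Q, red_coeffMap_jA_ne_zero hA₀ hQ, ?_⟩
    rw [incl_coeffMap_jA, incl_coeffMap_jA, coe_bcX, ← h, map_mul]
    rfl
  refine ⟨hfw z, fun hz => ?_⟩
  by_cases hz0 : z = 0
  · rw [hz0]
    exact Va.zero_mem
  set ϖ : FK K L := algebraMap K (FK K L) ϖ₀ with hϖ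
  obtain ⟨n, h1, h2⟩ := hV.unif.exists_zpow z hz0
  have hϖ0 : ϖ ≠ 0 := by
    intro h
    apply hV.unif.inv_notMem
    rw [← hϖ, h, inv_zero]
    exact Va.zero_mem
  have hzn : z = ϖ ^ n * (z / ϖ ^ n) := by
    rw [mul_div_cancel₀ _ (zpow_ne_zero n hϖ0)]
  rcases le_or_gt 0 n with hn | hn
  · rw [hzn]
    refine Va.mul_mem _ _ ?_ h1
    obtain ⟨m, rfl⟩ := Int.eq_ofNat_of_zero_le hn
    rw [zpow_natCast]
    exact Va.pow_mem hV.unif.mem m
  · exfalso
    -- `ϖ⁻¹ ∈ G`
    obtain ⟨m, hm⟩ : ∃ m : ℕ, n = -((m : ℤ) + 1) := ⟨(-n - 1).toNat, by omega⟩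
    have e1 : ϖ⁻¹ = z * (z / ϖ ^ n)⁻¹ * ϖ ^ m := by
      rw [hm, zpow_neg, zpow_add₀ hϖ0, zpow_natCast, zpow_one]
      field_simp
    have h3 : bcX K L ϖ⁻¹ ∈ G := by
      rw [e1, map_mul, map_mul]
      refine G.mul_mem _ _ (G.mul_mem _ _ hz (hfw _ h2)) (hfw _ (Va.pow_mem hV.unif.mem m))
    have h4 : bcX K L ϖ⁻¹ = algebraMap Kbar (FN L) (algebraMap K Kbar ϖ₀⁻¹) := by
      rw [hϖ, ← map_inv₀]
      exact S18.Descent.baseChangeMap_algebraMap _ _
    rw [h4, hG] at h3
    have h5 : algebraMap K Kbar ϖ₀⁻¹ ∈ A := by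
      apply Hecke.IntS.mem_of_const
      rw [← C1.RedField.coe_algebraMap (N := L)]
      exact h3
    apply h₀.inv_notMem
    rw [← hA₀]
    exact h5

end Gauss

section AL

variable (K : Type) [Field K] [Algebra ℚ K] [Algebra K Kbar] {M q : ℕ} [NeZero M] [NeZero q]

theorem bcX_JK (N d : ℕ) [NeZero d] (hd : d ∣ N) : bcX K N (JK K N d hd) = JK Kbar N d hd := by
  apply Subtype.ext
  rw [coe_bcX, coe_JK, coe_JK]
  exact coeffMap_Js _ d

theorem JK_congr (N : ℕ) {d d' : ℕ} [NeZero d] [NeZero d'] (h : d = d') (hd : d ∣ N)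
    (hd' : d' ∣ N) : JK Kbar N d hd = JK Kbar N d' hd' := by
  subst h
  rfl

/-- **(C2)** -/
theorem bcX_ww (hq : q.Prime) (hc : M.Coprime q) (D : C1.ALData M q) (z : FK K (M * q)) :
    bcX K (M * q) (Mod.ww K hc z) = D.w (bcX K (M * q) z) := by
  have key : (bcX K (M * q)).comp ((Mod.ww K hc : FK K (M * q) ≃ₐ[K] FK K (M * q)) :
        FK K (M * q) →+* FK K (M * q)) =
      (D.w : FN (M * q) →+* FN (M * q)).comp (bcX K (M * q)) := by
    apply ringHom_ext_JK
    · intro c
      show bcX K (M * q) (Mod.ww K hc (algebraMap K _ c)) = D.w (bcX K (M * q) (algebraMap K _ c))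
      rw [AlgEquiv.commutes]
      have e : bcX K (M * q) (algebraMap K (FK K (M * q)) c) =
          algebraMap Kbar (FN (M * q)) (algebraMap K Kbar c) :=
        S18.Descent.baseChangeMap_algebraMap _ c
      rw [e, D.w.commutes]
    · intro d hne hd
      show bcX K (M * q) (Mod.ww K hc (JK K (M * q) d hd)) = D.w (bcX K (M * q) (JK K (M * q) d hd))
      have hww : ∀ f, Mod.ww K hc f = wAL K (M * q) M q rfl hc f := fun _ => rfl
      rw [hww, bcX_JK]
      by_cases hqd : q ∣ d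
      · obtain ⟨d', rfl⟩ := hqd
        have hd' : d' ∣ M := by
          rw [mul_comm M q] at hd
          exact Nat.dvd_of_mul_dvd_mul_left hq.pos hd
        have : NeZero d' := ⟨fun h => hne.out (by rw [h, mul_zero])⟩
        have h1 : d' * q ∣ M * q := Nat.mul_dvd_mul_right hd' q
        have h2 : d' * 1 ∣ M * q := by rw [mul_one]; exact hd'.mul_right q
        have e1 : JK K (M * q) (q * d') hd = JK K (M * q) (d' * q) h1 := by
          apply Subtype.ext
          rw [coe_JK, coe_JK]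
          exact Js_congr K (mul_comm q d')
        rw [e1, wAL_JK K (M * q) M q rfl hc d' q 1 hd' (mul_one q) h1 h2, bcX_JK,
          ← be_JK (L := Kbar) M q d' hd' hd]
        have e2 : D.w (heckeBetaBar Kbar M q (JK Kbar M d' hd')) =
            heckeAlphaBar Kbar M q (JK Kbar M d' hd') := D.w_be _
        rw [e2, al_JK]
        exact JK_congr _ (mul_one d') _ _
      · have hcop : Nat.Coprime d q :=
          Nat.coprime_comm.1 ((Nat.Prime.coprime_iff_not_dvd hq).2 hqd)
        have hd' : d ∣ M := hcop.dvd_of_dvd_mul_right hd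
        have h1 : d * 1 ∣ M * q := by rw [mul_one]; exact hd
        have h2 : d * q ∣ M * q := Nat.mul_dvd_mul_right hd' q
        have h3 : q * d ∣ M * q := by rw [mul_comm q d]; exact h2
        have e1 : JK K (M * q) d hd = JK K (M * q) (d * 1) h1 := by
          apply Subtype.ext
          rw [coe_JK, coe_JK]
          exact Js_congr K (mul_one d).symm
        rw [e1, wAL_JK K (M * q) M q rfl hc d 1 q hd' (one_mul q) h1 h2, bcX_JK,
          ← al_JK (L := Kbar) M q d hd']
        have e2 : D.w (heckeAlphaBar Kbar M q (JK Kbar M d hd')) =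
            heckeBetaBar Kbar M q (JK Kbar M d hd') := D.w_al _
        rw [e2, be_JK (L := Kbar) M q d hd' h3]
        exact JK_congr _ (mul_comm d q) _ _
  exact RingHom.congr_fun key z

end AL

end Fermat.Agent.S44.X.Slope

end
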