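/-
S44, block X, assembly of NodeSlope (helper38, second team): corollaries of helper103's (C1) + (C2)
(`Slope/Compat.lean`): the two vertical valuation rings `Va`, `Vb` of `FK K (M p)` are the traces of
`G` and of `wG D G`.
-/
import Fermat.Agent.S44.X.Slope.Compat

set_option autoImplicit false
set_option linter.unusedSectionVars false

noncomputable section

namespace Fermat.Agent.S44.X.Slope

open ModularCurve Fermat.Agent.S24 Fermat.Agent.GAL Fermat.Agent.GAL.E Fermat.Agent.C1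
  Fermat.Agent.S18 Fermat.Agent.BAD.LevelQ Fermat.Agent.S44.X.Cover

variable {K : Type} [Field K] [Algebra ℚ K] [Algebra K Kbar] {M p : ℕ} [NeZero M] [NeZero p]
  {A : ValuationSubring Kbar} {A₀ : ValuationSubring K} [IsDiscreteValuationRing A₀]

theorem mem_Vb_iff_bcX_mem (hp : p.Prime)
    (hA₀ : A.comap (algebraMap K Kbar) = A₀) {ϖ₀ : K} (h₀ : IsUnif A₀ ϖ₀)
    {Va Vb : ValuationSubring (FK K (M * p))} (hVa : IsGauss A₀ ϖ₀ (FK K (M * p)) Va)
    (hc : M.Coprime p) (hVb : ∀ z, z ∈ Vb ↔ Mod.ww K hc z ∈ Va)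
    {G : ValuationSubring (FN (M * p))} (hG : IsGaussFN A (M * p) G) (D : ALData M p)
    (z : FK K (M * p)) : z ∈ Vb ↔ bcX K (M * p) z ∈ wG D G := by
  rw [hVb, gauss_compat hA₀ h₀ hVa hG, bcX_ww K hp hc D]
  exact Iff.rfl

theorem Va_eq_comap
    (hA₀ : A.comap (algebraMap K Kbar) = A₀) {ϖ₀ : K} (h₀ : IsUnif A₀ ϖ₀) {L : ℕ}
    {Va : ValuationSubring (FK K L)} (hVa : IsGauss A₀ ϖ₀ (FK K L) Va)
    {G : ValuationSubring (FN L)} (hG : IsGaussFN A L G) : Va = G.comap (bcX K L) := by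
  ext z
  exact gauss_compat hA₀ h₀ hVa hG z

theorem Vb_eq_comap (hp : p.Prime)
    (hA₀ : A.comap (algebraMap K Kbar) = A₀) {ϖ₀ : K} (h₀ : IsUnif A₀ ϖ₀)
    {Va Vb : ValuationSubring (FK K (M * p))} (hVa : IsGauss A₀ ϖ₀ (FK K (M * p)) Va)
    (hc : M.Coprime p) (hVb : ∀ z, z ∈ Vb ↔ Mod.ww K hc z ∈ Va)
    {G : ValuationSubring (FN (M * p))} (hG : IsGaussFN A (M * p) G) (D : ALData M p) :
    Vb = (wG D G).comap (bcX K (M * p)) := by
  ext z
  exact mem_Vb_iff_bcX_mem hp hA₀ h₀ hVa hc hVb hG D z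

end Fermat.Agent.S44.X.Slope

end
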