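/-
S44, block X, ASSEMBLY of NodeSlope (helper213).

  nodeSlope_of : NodeField → NodeRat → NodeSheet → NodeUnif → NodeTW → NodeSetup → NodeRed → NodeSlope

(`Cover/Nodes.lean`, `Cover/Inst.lean`).  The other inputs are theorems on main:
`Hecke.nodeGaussFN`, `Hecke.tDeep_wG`, `Y3.cdesc_TR`, `Hor.horUnr`, `Hor.horDiv`, `PL.pl_main₀`,
`Model.isNodeModel`, `Model.mem_VV_zero_iff_bcX_mem`, `Model.mem_VV_one_iff_bcX_mem`.
-/
import Fermat.Agent.S44.X.Slope.Asm.Core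
import Fermat.Agent.S44.X.Model.Top
import Fermat.Agent.S44.X.Model.GaussFN
import Fermat.Agent.S44.X.Cover.Hecke.Main
import Fermat.Agent.C1.Mod.Main

set_option autoImplicit false

noncomputable section

namespace Fermat.Agent.S44.X.Slope

open ModularCurve AlgebraicCurve Fermat.Agent.S24 Fermat.Agent.GAL Fermat.Agent.S28.Export
  Fermat.Agent.S44.X.Cover Fermat.Agent.BAD.Bridge Fermat.Agent.S36.BP
  Fermat.Agent.S36.Mod Fermat.Agent.BAD.LevelQ.Mod Fermat.Agent.Lib.InertiaField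
  Fermat.Agent.Lib.EtaUnit
open Fermat.Agent.S18 (IsUnif)

theorem isFix_K0 (A : ValuationSubring Qb) : IsFix (K0 A) (Iner A) := by
  intro x
  rw [← mem_K0_iff]
  constructor
  · intro h
    exact ⟨⟨x, h⟩, rfl⟩
  · rintro ⟨y, rfl⟩
    exact y.2

/-- **The assembly.** -/
theorem nodeSlope_of (hField : NodeField) (hRat : NodeRat) (hSheet : NodeSheet)
    (hUnif : NodeUnif) (hTW : NodeTW) (hSetup : NodeSetup) (hR : NodeRed) : NodeSlope := by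
  intro P M' _ hsq A hA W₀ u₀ u₁ hN ubar hu xbar hx
  have hp : P.p.Prime := P.pp
  have h5 : 5 ≤ P.p := P.hp5
  have hp2 : P.p ≠ 2 := by omega
  have hpM : ¬ P.p ∣ M' := by
    rintro ⟨c, rfl⟩
    have h := Nat.squarefree_iff_prime_squarefree.mp hsq P.p P.pp
    exact h ⟨c, by ring⟩
  have hp4 := coprime_four P
  have hpM4 : ¬ P.p ∣ M' * 4 := fun h => hpM (hp4.dvd_of_dvd_mul_right h)
  have hc : (M' * 4).Coprime P.p := ((Nat.Prime.coprime_iff_not_dvd hp).2 hpM4).symm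
  have hN4 : 4 * P.p ∣ M' * 4 * P.p := ⟨M', by ring⟩
  obtain ⟨D⟩ := C1.nonempty_alData (M' * 4) P.p hp hpM4
  obtain ⟨G, hG, hGH, hGH', hTD⟩ := Hecke.nodeGaussFN A P.p (M' * 4) hp hA hpM4
  obtain ⟨U, U₁, W, hRoot, hU₁, hK₁, hgal₁, hstab, hred, hdeep, ℓ, _, H, a, g, hℓ, hℓ2, hℓN, hT,
    ha⟩ := hSetup P M' hsq A hA W₀ u₀ u₁ hN D G hG
  have hℓp : ℓ ≠ P.p := by
    rintro rfl
    exact hℓN (dvd_mul_left _ _)
  have hTD1 : TDeep P.p G H := hTD ℓ H hℓ hℓp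
  have hTD2 : TDeep P.p (wG D G) H :=
    Hecke.tDeep_wG D H (hTW (M' * 4) P.p ℓ hp hpM4 hℓ hℓN D H) hTD1
  have hrat : ∀ t : FN (M' * 4 * P.p), Deep G P.p 2 (U * t ^ P.p) →
      IsRat (Iner A) P.p (M' * 4 * P.p) W G t :=
    hRat A (Iner A) P.p (M' * 4 * P.p) ℓ hp hp2 hA hℓ hℓ2 U W hRoot G hGH H hTD1 a g hT ha
  have hrat' : ∀ t : FN (M' * 4 * P.p), Deep (wG D G) P.p 2 (U * t ^ P.p) →
      IsRat (Iner A) P.p (M' * 4 * P.p) W (wG D G) t :=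
    hRat A (Iner A) P.p (M' * 4 * P.p) ℓ hp hp2 hA hℓ hℓ2 U W hRoot (wG D G) (hGH' D) H hTD2 a g
      hT ha
  have := isDiscreteValuationRing_A0 A P.p hp hA
  have hU0 : IsUnif (A0 A) (P.p : K0 A) := BAD.Bridge.isUnif_A0 A P.p hp hA
  have hMod := Model.isNodeModel hp h5 hpM4 (Dvd.intro_left M' rfl) hA hc hp4 hN4
  have hVa : ∀ z, z ∈ VV (A0 A) hc 0 ↔ bcX (K0 A) (M' * 4 * P.p) z ∈ G :=
    fun z => Model.mem_VV_zero_iff_bcX_mem (Model.comap_A0 A) hc hG z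
  have hVb : ∀ z, z ∈ VV (A0 A) hc 1 ↔ bcX (K0 A) (M' * 4 * P.p) z ∈ wG D G :=
    fun z => Model.mem_VV_one_iff_bcX_mem (Model.comap_A0 A) hp hc D hG z
  have hVU : ∀ c, IsUnif (VV (A0 A) hc c) (P.p : FK (K0 A) (M' * 4 * P.p)) := by
    intro c
    have := isUnif_VV hU0 hc c
    rwa [map_natCast] at this
  refine Asm.slope_core hField hSheet hUnif hR (K := K0 A) A P.p (M' * 4) hp hp2 hpM4 hA
    (isFix_K0 A) (A0 A) (fun x => Iff.rfl) hU0 D G hG hGH (hGH' D) U U₁ W hRoot hU₁ hK₁ hgal₁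
    (stabU A u₀ u₁) (fun τ hτ => ⟨hτ.1, hstab τ hτ⟩)
    (fun n => (hdeep n).imp fun t ht => ⟨ht.1, ht.2.1⟩)
    (fun n => (hdeep n).imp fun t ht => ⟨ht.1, ht.2.2⟩) hrat hrat'
    (VV (A0 A) hc 0) (VV (A0 A) hc 1) (unitK isW1_G4 P.p (M' * 4 * P.p) hp4 hN4 (K0 A))
    (Model.yK isW1_G4 hp4 hN4 (K0 A)) hVa hVb (hVU 0) (hVU 1) hMod.pts
    (inclFk A M' 4 ubar) xbar ?_ ?_
  · rw [coe_inclFk]
    exact hred _ hu
  · have e : bcX (K0 A) (M' * 4 * P.p) (unitK isW1_G4 P.p (M' * 4 * P.p) hp4 hN4 (K0 A)) =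
        xU P.p M' hp4 := baseChangeMap_unitK isW1_G4 P.p (M' * 4 * P.p) hp4 hN4 _
    rw [e]
    exact hx

end Fermat.Agent.S44.X.Slope

end
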