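/-
S44, block X: **NodeSlope** (assembly helper213; nodes: helper194/helper59 Field, helper43 Rat,
helper30 Sheet, helper223 Unif + PL, helper88 TW, helper93 Setup, helper43 Red, helper44 Y3,
helper59 Hor, helper97 Model, helper103/helper51 Hecke; design helper132).
-/
import Fermat.Agent.S44.X.Slope.Top
import Fermat.Agent.S44.X.Cover.Field.Main
import Fermat.Agent.S44.X.Cover.Rat.Main
import Fermat.Agent.S44.X.Cover.Sheet.Main
import Fermat.Agent.S44.X.Cover.Unif.Main
import Fermat.Agent.S44.X.Cover.TW.Node
import Fermat.Agent.S44.X.Cover.Setup.Node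
import Fermat.Agent.S44.X.Red.Main

set_option autoImplicit false

namespace Fermat.Agent.S44.X.Slope

open Fermat.Agent.S44.X.Cover

theorem nodeSlope : NodeSlope :=
  nodeSlope_of nodeField nodeRat (Sheet.nodeSheet_of nodeField) nodeUnif nodeTW nodeSetup nodeRed

end Fermat.Agent.S44.X.Slope
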