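/-
S44, block X, assembly of NodeSlope, lemma (R) (helper103): two elements of `FN L` which are
congruent modulo the maximal ideal of the Gauss ring have the same reductions.
-/
import Fermat.Agent.S44.X.Cover.Inst
import Fermat.Agent.S44.X.Red.API

set_option autoImplicit false

noncomputable section

namespace Fermat.Agent.S44.X.Slope

open ModularCurve AlgebraicCurve Fermat.Agent.S24 Fermat.Agent.GAL Fermat.Agent.S44.X.Cover
  Fermat.Agent.S28.Export

variable {A : ValuationSubring S44.Qb} {L : ℕ} {G : ValuationSubring (FN L)}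

/-- membership in the Gauss ring in terms of `S28.Export.Red` -/
theorem mem_iff_exists_red (hG : IsGaussFN A L G) (f : FN L) :
    f ∈ G ↔ ∃ g, Red A (f : LaurentSeries S44.Qb) g := by
  rw [hG]
  constructor
  · rintro ⟨P, Q, hQ, h⟩
    exact ⟨E.red A P / E.red A Q, P, Q, hQ, h, div_mul_cancel₀ _ hQ⟩
  · rintro ⟨g, P, Q, hQ, h, -⟩
    exact ⟨P, Q, hQ, h⟩

/-- an element of the maximal ideal of the Gauss ring reduces to `0` -/
theorem red_zero_of_val_lt_one (hG : IsGaussFN A L G) {f : FN L} (hf : G.valuation f < 1) :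
    Red A (f : LaurentSeries S44.Qb) 0 := by
  obtain ⟨g, hg⟩ := (mem_iff_exists_red hG f).1 ((G.valuation_le_one_iff f).1 hf.le)
  by_cases hg0 : g = 0
  · rwa [hg0] at hg
  · exfalso
    have h1 : f⁻¹ ∈ G := (mem_iff_exists_red hG f⁻¹).2 ⟨g⁻¹, hg.inv hg0⟩
    have h2 := (G.valuation_le_one_iff _).2 h1
    have hf0 : f ≠ 0 := by
      rintro rfl
      exact hg.ne_zero hg0 rfl
    rw [map_inv₀] at h2
    have h3 : G.valuation f ≠ 0 := (map_ne_zero _).2 hf0
    exact absurd ((inv_le_one₀ (zero_lt_iff.2 h3)).1 h2) (not_le.2 hf)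

/-- a unit of the Gauss ring has a nonzero reduction -/
theorem exists_red_ne_zero_of_val_eq_one (hG : IsGaussFN A L G) {f : FN L}
    (hf : G.valuation f = 1) : ∃ g, g ≠ 0 ∧ Red A (f : LaurentSeries S44.Qb) g := by
  obtain ⟨g, hg⟩ := (mem_iff_exists_red hG f).1 ((G.valuation_le_one_iff f).1 hf.le)
  have h1 : f⁻¹ ∈ G := by
    apply (G.valuation_le_one_iff _).1
    rw [map_inv₀, hf, inv_one]
  obtain ⟨g', hg'⟩ := (mem_iff_exists_red hG f⁻¹).1 h1
  have hf0 : (f : LaurentSeries S44.Qb) ≠ 0 := by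
    intro h0
    have : f = 0 := Subtype.ext h0
    rw [this, map_zero] at hf
    exact zero_ne_one hf
  have h2 : Red A 1 (g * g') := by
    have := hg.mul hg'
    rwa [show ((f⁻¹ : FN L) : LaurentSeries S44.Qb) = (f : LaurentSeries S44.Qb)⁻¹ from rfl,
      mul_inv_cancel₀ hf0] at this
  refine ⟨g, ?_, hg⟩
  rintro rfl
  rw [zero_mul] at h2
  exact zero_ne_one (h2.unique red_one)

/-- **(R)** two elements of `FN L` which are congruent modulo the maximal ideal of the Gauss ring
have the same reductions. -/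
theorem isRed_congr {p : ℕ} (hp : p.Prime) (hA : A.LiesOverPrime p) (hG : IsGaussFN A L G)
    {y r : FN L} (hr : G.valuation r = 1) (hy : G.valuation (y - r) < 1)
    {rbar : LaurentSeries (S44.kA A)} (h : S44.IsRed A r rbar) : S44.IsRed A y rbar := by
  have h0 : rbar ≠ 0 := h.ne_zero
  obtain ⟨c, hc, h1⟩ := h.exists_red
  obtain ⟨g, hg0, hg⟩ := exists_red_ne_zero_of_val_eq_one hG hr
  have hcA : c ∈ A := mem_of_red_smul hg hg0 h1
  have h2 := (red_zero_of_val_lt_one hG hy).smul (⟨c, hcA⟩ : A)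
  rw [smul_zero] at h2
  have h3 := h1.add h2
  rw [add_zero] at h3
  refine S44.isRed_of_red hp hA h0 hc ?_
  have e : c • (y : LaurentSeries S44.Qb) =
      c • (r : LaurentSeries S44.Qb) + c • ((y - r : FN L) : LaurentSeries S44.Qb) := by
    rw [← smul_add]
    congr 1
    show (y : LaurentSeries S44.Qb) = (r : LaurentSeries S44.Qb) +
      ((y : LaurentSeries S44.Qb) - (r : LaurentSeries S44.Qb))
    ring
  rw [e]
  exact h3

end Fermat.Agent.S44.X.Slope

end
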